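import Mathlib

/-!
# S14 / Thaine package, ramification part (helper71)

`K` is any number field, `q` a prime number, `M = K(ζ_q)` a `q`-th cyclotomic extension of `K`.

* `ramificationIdx_eq_one_of_not_mem` (R1): a prime `w` of `𝓞 M` with `q ∉ w` is unramified
  over `𝓞 K` (via the different ideal).
* `dvd_of_mem_pow_of_not_mem` (R2): if `γ ∈ 𝓞 K` is `β ^ (q - 1)` times a unit in `𝓞 M`, then the
  exact exponent of every prime `v ∌ q` of `𝓞 K` in `γ` is divisible by `q - 1`.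
* `pow_sub_mem_of_mem` (R3): if moreover `[M : K] = q - 1`, `q ∈ v`, `q ∉ v ^ 2`, `τ ζ = ζ ^ g`,
  `τ β = δ β` and `δ ≡ c` modulo `ζ - 1` with `c ∈ 𝓞 K`, then `g ^ s ≡ c` modulo `v`, where `s` is
  the exact exponent of `v` in `γ`.
-/

open NumberField Ideal Polynomial

namespace Fermat.Agent.S14.H71

section Ord

variable {R : Type*} [CommRing R] [IsDedekindDomain R]

lemma emult_eq_iff (P : Ideal R) (x : R) (s : ℕ) :
    emultiplicity P (span {x}) = s ↔ x ∈ P ^ s ∧ x ∉ P ^ (s + 1) := by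
  rw [emultiplicity_eq_coe, Ideal.dvd_span_singleton, Ideal.dvd_span_singleton]

lemma emult_pow_mul_unit (P : Ideal R) [P.IsPrime] (hP0 : P ≠ ⊥) (b : R) (n : ℕ) (u : Rˣ) :
    emultiplicity P (span {b ^ n * (u : R)}) = n * emultiplicity P (span {b}) := by
  rw [Ideal.span_singleton_mul_right_unit u.isUnit, ← Ideal.span_singleton_pow,
    emultiplicity_pow (Ideal.prime_of_isPrime hP0 inferInstance)]

end Ord

variable (q : ℕ) [hq : Fact q.Prime] (K M : Type*) [Field K] [NumberField K] [Field M]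
  [NumberField M] [Algebra K M]

lemma emult_algebraMap (v : Ideal (𝓞 K)) [v.IsPrime] (hv0 : v ≠ ⊥) (w : Ideal (𝓞 M)) [w.IsPrime]
    [w.LiesOver v] (x : 𝓞 K) (hx : x ≠ 0) :
    emultiplicity w (span {algebraMap (𝓞 K) (𝓞 M) x}) =
      (w.ramificationIdx (𝓞 K) : ℕ∞) * emultiplicity v (span {x}) := by
  have hw0 : w ≠ ⊥ := Ideal.ne_bot_of_liesOver_of_ne_bot hv0 w
  have h1 := Ideal.IsDedekindDomain.emultiplicity_map_eq_ramificationIdx'_mul
    (R := 𝓞 K) (S := 𝓞 M) (v := v) (w := w) (I := span {x}) (by simpa using hx)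
    (Ideal.prime_of_isPrime hv0 inferInstance).irreducible
    (Ideal.prime_of_isPrime hw0 inferInstance).irreducible hw0
  rw [Ideal.map_span, Set.image_singleton, ramificationIdx'_eq_ramificationIdx v w hv0] at h1
  exact h1

omit [NumberField K] [NumberField M] in
lemma exists_prime_liesOver (v : Ideal (𝓞 K)) [v.IsPrime] :
    ∃ w : Ideal (𝓞 M), w.IsPrime ∧ w.LiesOver v := by
  obtain ⟨w, -, hw, hwv⟩ := Ideal.exists_ideal_over_prime_of_isIntegral v (⊥ : Ideal (𝓞 M))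
    (by
      intro x hx
      have : algebraMap (𝓞 K) (𝓞 M) x = 0 := by simpa using hx
      have h0 : x = 0 := by
        have hinj := FaithfulSMul.algebraMap_injective (𝓞 K) (𝓞 M)
        exact hinj (by simpa using this)
      simp [h0])
  exact ⟨w, hw, ⟨hwv.symm⟩⟩

omit [NumberField K] [NumberField M] in
/-- If the residue degree is one, every integer of `M` is congruent to an integer of `K`. -/
lemma exists_sub_mem_of_inertiaDeg_eq_one (v : Ideal (𝓞 K)) [v.IsMaximal] (w : Ideal (𝓞 M))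
    [w.IsMaximal] [w.LiesOver v] (hf : w.inertiaDeg (𝓞 K) = 1) (y : 𝓞 M) :
    ∃ c : 𝓞 K, y - algebraMap (𝓞 K) (𝓞 M) c ∈ w := by
  rw [Ideal.inertiaDeg_eq_of_isMaximal v w] at hf
  let _ : Field (𝓞 K ⧸ v) := Ideal.Quotient.field v
  let _ : Field (𝓞 M ⧸ w) := Ideal.Quotient.field w
  obtain ⟨c', hc'⟩ := (finrank_eq_one_iff_of_nonzero' (1 : 𝓞 M ⧸ w) one_ne_zero).mp hf
    (Ideal.Quotient.mk w y)
  obtain ⟨c, rfl⟩ := Ideal.Quotient.mk_surjective c'
  refine ⟨c, ?_⟩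
  rw [← Ideal.Quotient.eq_zero_iff_mem, map_sub, ← hc', Algebra.smul_def, mul_one,
    Ideal.Quotient.algebraMap_mk_of_liesOver, sub_self]

omit [NumberField K] [NumberField M] in
/-- A `K`-automorphism preserves the unique prime above `v`. -/
lemma algEquiv_mem_of_unique (v : Ideal (𝓞 K)) (w : Ideal (𝓞 M)) [w.IsPrime] [w.LiesOver v]
    (huniq : ∀ w' : Ideal (𝓞 M), w'.IsPrime → w'.LiesOver v → w' = w)
    (σ : 𝓞 M ≃ₐ[𝓞 K] 𝓞 M) {x : 𝓞 M} (hx : x ∈ w) : σ x ∈ w := by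
  have h1 : (Ideal.comap (σ : 𝓞 M →+* 𝓞 M) w).IsPrime := Ideal.comap_isPrime _ _
  have h2 : (Ideal.comap (σ : 𝓞 M →+* 𝓞 M) w).LiesOver v := by
    constructor
    ext a
    rw [Ideal.under_def, Ideal.mem_comap, Ideal.mem_comap]
    have : (σ : 𝓞 M →+* 𝓞 M) (algebraMap (𝓞 K) (𝓞 M) a) = algebraMap (𝓞 K) (𝓞 M) a := by
      simp
    rw [this, Ideal.over_def w v, Ideal.under_def, Ideal.mem_comap]
  have h3 := huniq _ h1 h2
  rw [← h3] at hx
  exact hx

omit [NumberField K] [NumberField M] in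
lemma algEquiv_mem_pow_of_unique (v : Ideal (𝓞 K)) (w : Ideal (𝓞 M)) [w.IsPrime] [w.LiesOver v]
    (huniq : ∀ w' : Ideal (𝓞 M), w'.IsPrime → w'.LiesOver v → w' = w)
    (σ : 𝓞 M ≃ₐ[𝓞 K] 𝓞 M) (n : ℕ) {x : 𝓞 M} (hx : x ∈ w ^ n) : σ x ∈ w ^ n := by
  have hmap : Ideal.map (σ : 𝓞 M →+* 𝓞 M) w ≤ w :=
    Ideal.map_le_iff_le_comap.mpr (fun x hx => algEquiv_mem_of_unique K M v w huniq σ hx)
  have h1 : (σ : 𝓞 M →+* 𝓞 M) x ∈ Ideal.map (σ : 𝓞 M →+* 𝓞 M) (w ^ n) :=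
    Ideal.mem_map_of_mem _ hx
  rw [Ideal.map_pow] at h1
  exact Ideal.pow_right_mono hmap n h1

/-- Ramification over a prime `v` with `q ∈ v`, `q ∉ v ^ 2`: the exponent of `ζ - 1` at a prime
`w` above `v` times `q - 1` is the ramification index. -/
lemma ram_eq_mul {ζ : M} (hζ : IsPrimitiveRoot ζ q) (v : Ideal (𝓞 K)) [v.IsPrime]
    (hv : (q : 𝓞 K) ∈ v) (hv2 : (q : 𝓞 K) ∉ v ^ 2) (w : Ideal (𝓞 M)) [w.IsPrime]
    [w.LiesOver v] :
    ∃ m : ℕ, 0 < m ∧ emultiplicity w (span {hζ.toInteger - 1}) = m ∧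
      w.ramificationIdx (𝓞 K) = (q - 1) * m := by
  have hq0 : (q : 𝓞 K) ≠ 0 := Nat.cast_ne_zero.mpr hq.out.ne_zero
  have hv0 : v ≠ ⊥ := by
    rintro rfl
    exact hq0 (by simpa using hv)
  have hw0 : w ≠ ⊥ := Ideal.ne_bot_of_liesOver_of_ne_bot hv0 w
  have h1 := emult_algebraMap K M v hv0 w (q : 𝓞 K) hq0
  rw [(emult_eq_iff v (q : 𝓞 K) 1).mpr ⟨by simpa using hv, hv2⟩, map_natCast, Nat.cast_one,
    mul_one, ← Ideal.span_singleton_eq_span_singleton.mpr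
      (IsCyclotomicExtension.Rat.associated_zeta_sub_one_pow_prime q hζ),
    ← Ideal.span_singleton_pow, emultiplicity_pow (Ideal.prime_of_isPrime hw0 inferInstance)] at h1
  have hz1 : hζ.toInteger - 1 ≠ 0 := by
    intro h0
    have := hζ.toInteger_isPrimitiveRoot.ne_one hq.out.one_lt
    exact this (sub_eq_zero.mp h0)
  have hfin : FiniteMultiplicity w (span {hζ.toInteger - 1}) :=
    FiniteMultiplicity.of_prime_left (Ideal.prime_of_isPrime hw0 inferInstance) (by simpa using hz1)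
  rw [hfin.emultiplicity_eq_multiplicity] at h1
  have h2 : (((q - 1) * multiplicity w (span {hζ.toInteger - 1}) : ℕ) : ℕ∞) =
      ((w.ramificationIdx (𝓞 K) : ℕ) : ℕ∞) := by
    rw [Nat.cast_mul]; exact h1
  rw [Nat.cast_inj] at h2
  have hpos : 0 < w.ramificationIdx (𝓞 K) := Ideal.ramificationIdx_pos w (𝓞 K)
  refine ⟨multiplicity w (span {hζ.toInteger - 1}), ?_, hfin.emultiplicity_eq_multiplicity, h2.symm⟩
  rcases Nat.eq_zero_or_pos (multiplicity w (span {hζ.toInteger - 1})) with h0 | h0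
  · rw [h0, mul_zero] at h2
    omega
  · exact h0

/-- Total ramification: over a prime `v` with `q ∈ v`, `q ∉ v ^ 2`, when `[M : K] = q - 1`,
there is only one prime, with `e = q - 1`, `f = 1`, and `ζ - 1` is a uniformizer. -/
lemma totally_ramified (hdeg : Module.finrank K M = q - 1) {ζ : M} (hζ : IsPrimitiveRoot ζ q)
    (v : Ideal (𝓞 K)) [v.IsPrime] (hv : (q : 𝓞 K) ∈ v) (hv2 : (q : 𝓞 K) ∉ v ^ 2)
    (w : Ideal (𝓞 M)) [w.IsPrime] [w.LiesOver v] :
    emultiplicity w (span {hζ.toInteger - 1}) = 1 ∧ w.ramificationIdx (𝓞 K) = q - 1 ∧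
      w.inertiaDeg (𝓞 K) = 1 ∧
      ∀ w' : Ideal (𝓞 M), w'.IsPrime → w'.LiesOver v → w' = w := by
  have hq1 : 0 < q - 1 := by have := hq.out.two_le; omega
  let _ : Fintype (v.primesOver (𝓞 M)) :=
    (Algebra.QuasiFinite.finite_primesOver (S := 𝓞 M) v).fintype
  have hsum := Ideal.sum_ramification_inertia_eq_finrank v (𝓞 M)
  rw [← IsFractionRing.finrank_eq (𝓞 K) K (𝓞 M) M, hdeg] at hsum
  have hterm : ∀ P : v.primesOver (𝓞 M),
      q - 1 ≤ P.1.ramificationIdx (𝓞 K) * P.1.inertiaDeg (𝓞 K) := by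
    intro P
    have : P.1.IsPrime := P.2.1
    have : P.1.LiesOver v := P.2.2
    obtain ⟨m, hm, -, he⟩ := ram_eq_mul q K M hζ v hv hv2 P.1
    have hf : 0 < P.1.inertiaDeg (𝓞 K) := Ideal.inertiaDeg_pos P.1 (𝓞 K)
    rw [he]
    calc q - 1 = (q - 1) * 1 * 1 := by ring
      _ ≤ (q - 1) * m * P.1.inertiaDeg (𝓞 K) :=
        Nat.mul_le_mul (Nat.mul_le_mul_left _ hm) hf
  have hcard : Fintype.card (v.primesOver (𝓞 M)) ≤ 1 := by
    have h1 := Finset.card_nsmul_le_sum (Finset.univ : Finset (v.primesOver (𝓞 M)))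
      (fun P => P.1.ramificationIdx (𝓞 K) * P.1.inertiaDeg (𝓞 K)) (q - 1) (fun P _ => hterm P)
    rw [hsum, smul_eq_mul, Finset.card_univ] at h1
    by_contra hcon
    have hcon' : 2 ≤ Fintype.card (v.primesOver (𝓞 M)) := by omega
    have : 2 * (q - 1) ≤ Fintype.card (v.primesOver (𝓞 M)) * (q - 1) :=
      Nat.mul_le_mul_right _ hcon'
    omega
  have : Subsingleton (v.primesOver (𝓞 M)) := Fintype.card_le_one_iff_subsingleton.mp hcard
  have huniq : ∀ w' : Ideal (𝓞 M), w'.IsPrime → w'.LiesOver v → w' = w := by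
    intro w' h1 h2
    have : (⟨w', h1, h2⟩ : v.primesOver (𝓞 M)) = ⟨w, inferInstance, inferInstance⟩ :=
      Subsingleton.elim _ _
    exact congrArg Subtype.val this
  obtain ⟨m, hm, hmult, he⟩ := ram_eq_mul q K M hζ v hv hv2 w
  have hf : 0 < w.inertiaDeg (𝓞 K) := Ideal.inertiaDeg_pos w (𝓞 K)
  have hle : w.ramificationIdx (𝓞 K) * w.inertiaDeg (𝓞 K) ≤ q - 1 := by
    have := Finset.single_le_sum (f := fun P : v.primesOver (𝓞 M) =>
      P.1.ramificationIdx (𝓞 K) * P.1.inertiaDeg (𝓞 K)) (fun _ _ => Nat.zero_le _)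
      (Finset.mem_univ (⟨w, inferInstance, inferInstance⟩ : v.primesOver (𝓞 M)))
    rw [hsum] at this
    exact this
  rw [he] at hle
  have hm1 : m = 1 := by
    by_contra hne
    have hm2 : 2 ≤ m := by omega
    have : (q - 1) * 2 * 1 ≤ (q - 1) * m * w.inertiaDeg (𝓞 K) :=
      Nat.mul_le_mul (Nat.mul_le_mul_left _ hm2) hf
    omega
  subst hm1
  have hf1 : w.inertiaDeg (𝓞 K) = 1 := by
    by_contra hne
    have hf2 : 2 ≤ w.inertiaDeg (𝓞 K) := by omega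
    have : (q - 1) * 1 * 2 ≤ (q - 1) * 1 * w.inertiaDeg (𝓞 K) :=
      Nat.mul_le_mul_left _ hf2
    omega
  exact ⟨by simpa using hmult, by simpa using he, hf1, huniq⟩

variable [IsCyclotomicExtension {q} K M]

attribute [local instance] FractionRing.liftAlgebra in
/-- A prime of `𝓞 M` not containing `q` does not divide the different of `𝓞 M / 𝓞 K`. -/
theorem not_dvd_differentIdeal_of_not_mem {ζ : M} (hζ : IsPrimitiveRoot ζ q)
    (w : Ideal (𝓞 M)) [w.IsPrime] (hqw : (q : 𝓞 M) ∉ w) :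
    ¬ w ∣ differentIdeal (𝓞 K) (𝓞 M) := by
  intro hdvd
  have hle : differentIdeal (𝓞 K) (𝓞 M) ≤ w := Ideal.dvd_iff_le.mp hdvd
  set z : 𝓞 M := hζ.toInteger with hz
  have hzq : z ^ q = 1 := hζ.toInteger_isPrimitiveRoot.pow_eq_one
  have hadj : Algebra.adjoin K {algebraMap (𝓞 M) M z} = ⊤ :=
    IsCyclotomicExtension.adjoin_primitive_root_eq_top (A := K) (B := M) hζ
  have hmem := aeval_derivative_mem_differentIdeal (𝓞 K) K M z hadj
  have hint : IsIntegral (𝓞 K) z := Algebra.IsIntegral.isIntegral z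
  have hdvd' : minpoly (𝓞 K) z ∣ (X ^ q - 1 : (𝓞 K)[X]) := by
    apply minpoly.isIntegrallyClosed_dvd hint
    simp [hzq]
  obtain ⟨h, hh⟩ := hdvd'
  have hder := congrArg (fun P => aeval z (derivative P)) hh
  simp only [derivative_sub, derivative_X_pow, derivative_one, sub_zero, derivative_mul,
    map_add, map_mul, minpoly.aeval, zero_mul, add_zero, map_natCast, map_pow, aeval_X] at hder
  have h1 : (q : 𝓞 M) * z ^ (q - 1) ∈ w := by
    have := hle hmem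
    have h2 := Ideal.mul_mem_right (aeval z h) w this
    rw [← hder] at h2
    simpa using h2
  rcases (Ideal.IsPrime.mem_or_mem inferInstance h1) with h2 | h2
  · exact hqw h2
  · have h3 : z ^ q ∈ w := by
      have : z ^ q = z ^ (q - 1) * z := by
        rw [← pow_succ, Nat.sub_add_cancel hq.out.one_le]
      rw [this]
      exact Ideal.mul_mem_right _ _ h2
    rw [hzq] at h3
    exact (Ideal.IsPrime.ne_top inferInstance) ((Ideal.eq_top_iff_one _).mpr h3)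

attribute [local instance] FractionRing.liftAlgebra in
/-- (R1) A prime of `𝓞 M` not containing `q` is unramified over `𝓞 K`. -/
theorem ramificationIdx_eq_one_of_not_mem {ζ : M} (hζ : IsPrimitiveRoot ζ q)
    (w : Ideal (𝓞 M)) [w.IsPrime] (hqw : (q : 𝓞 M) ∉ w) :
    w.ramificationIdx (𝓞 K) = 1 := by
  have h := not_dvd_differentIdeal_of_not_mem q K M hζ w hqw
  have : Algebra.IsUnramifiedAt (𝓞 K) w := not_dvd_differentIdeal_iff.mp h
  exact Ideal.ramificationIdx_eq_one_of_isUnramifiedAt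

/-- (R2) If `γ = β ^ (q - 1) * unit` in `𝓞 M`, then the exact power of a prime `v ∌ q` of `𝓞 K`
dividing `γ` is a multiple of `q - 1`. -/
theorem dvd_of_mem_pow_of_not_mem {ζ : M} (hζ : IsPrimitiveRoot ζ q) (γ : 𝓞 K) (β : 𝓞 M)
    (u : (𝓞 M)ˣ) (h : algebraMap (𝓞 K) (𝓞 M) γ = β ^ (q - 1) * u)
    (v : Ideal (𝓞 K)) [v.IsPrime] (hv : (q : 𝓞 K) ∉ v) (s : ℕ) (hs : γ ∈ v ^ s)
    (hs' : γ ∉ v ^ (s + 1)) : (q - 1) ∣ s := by
  have hγ : γ ≠ 0 := by
    rintro rfl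
    exact hs' (Ideal.zero_mem _)
  by_cases hv0 : v = ⊥
  · subst hv0
    rcases Nat.eq_zero_or_pos s with rfl | hpos
    · simp
    · exfalso
      apply hγ
      have : (⊥ : Ideal (𝓞 K)) ^ s = ⊥ := by
        rw [← Ideal.zero_eq_bot, zero_pow hpos.ne']
      rw [this] at hs
      simpa using hs
  obtain ⟨w, hw, hwv⟩ := exists_prime_liesOver K M v
  have hw0 : w ≠ ⊥ := Ideal.ne_bot_of_liesOver_of_ne_bot hv0 w
  have hqw : (q : 𝓞 M) ∉ w := by
    intro hmem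
    apply hv
    have h1 : algebraMap (𝓞 K) (𝓞 M) (q : 𝓞 K) ∈ w := by simpa using hmem
    have h2 : (q : 𝓞 K) ∈ w.under (𝓞 K) := h1
    rwa [← hwv.over] at h2
  have he := ramificationIdx_eq_one_of_not_mem q K M hζ w hqw
  have h1 := emult_algebraMap K M v hv0 w γ hγ
  rw [he, Nat.cast_one, one_mul, (emult_eq_iff v γ s).mpr ⟨hs, hs'⟩, h,
    emult_pow_mul_unit w hw0] at h1
  have hβ : β ≠ 0 := by
    rintro rfl
    have hq1 : q - 1 ≠ 0 := by have := hq.out.two_le; omega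
    rw [zero_pow hq1, zero_mul] at h
    exact hγ ((FaithfulSMul.algebraMap_injective (𝓞 K) (𝓞 M)) (by simpa using h))
  have hfin : FiniteMultiplicity w (span {β}) :=
    FiniteMultiplicity.of_prime_left (Ideal.prime_of_isPrime hw0 inferInstance) (by simpa using hβ)
  rw [hfin.emultiplicity_eq_multiplicity] at h1
  have h2 : ((q - 1 : ℕ) : ℕ∞) * (multiplicity w (span {β}) : ℕ∞) = (s : ℕ∞) := h1
  rw [← Nat.cast_mul, Nat.cast_inj] at h2
  exact ⟨_, h2.symm⟩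

omit [IsCyclotomicExtension {q} K M] in
/-- (R3) The Thaine congruence at a totally ramified prime. -/
theorem pow_sub_mem_of_mem (hdeg : Module.finrank K M = q - 1) {ζ : M} (hζ : IsPrimitiveRoot ζ q)
    (γ : 𝓞 K) (β : 𝓞 M) (u : (𝓞 M)ˣ) (h : algebraMap (𝓞 K) (𝓞 M) γ = β ^ (q - 1) * u)
    (v : Ideal (𝓞 K)) [v.IsPrime] (hv : (q : 𝓞 K) ∈ v) (hv2 : (q : 𝓞 K) ∉ v ^ 2)
    (τ : M ≃ₐ[K] M) (g : ℕ) (hτ : τ ζ = ζ ^ g) (δ : 𝓞 M)
    (hδ : τ (β : M) = (δ : M) * (β : M))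
    (c : 𝓞 K) (hc : δ - algebraMap (𝓞 K) (𝓞 M) c ∈ Ideal.span {hζ.toInteger - 1})
    (s : ℕ) (hs : γ ∈ v ^ s) (hs' : γ ∉ v ^ (s + 1)) : (g : 𝓞 K) ^ s - c ∈ v := by
  have hq1 : q - 1 ≠ 0 := by have := hq.out.two_le; omega
  have hq0 : (q : 𝓞 K) ≠ 0 := Nat.cast_ne_zero.mpr hq.out.ne_zero
  have hv0 : v ≠ ⊥ := by
    rintro rfl
    exact hq0 (by simpa using hv)
  have hvmax : v.IsMaximal := Ideal.IsPrime.isMaximal inferInstance hv0
  obtain ⟨w, hw, hwv⟩ := exists_prime_liesOver K M v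
  have hw0 : w ≠ ⊥ := Ideal.ne_bot_of_liesOver_of_ne_bot hv0 w
  have hwmax : w.IsMaximal := Ideal.IsPrime.isMaximal inferInstance hw0
  have hwprime : Prime w := Ideal.prime_of_isPrime hw0 inferInstance
  obtain ⟨hπ, he, hf, huniq⟩ := totally_ramified q K M hdeg hζ v hv hv2 w
  set z : 𝓞 M := hζ.toInteger with hz
  have hγ : γ ≠ 0 := by
    rintro rfl
    exact hs' (Ideal.zero_mem _)
  have hβ : β ≠ 0 := by
    rintro rfl
    rw [zero_pow hq1, zero_mul] at h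
    exact hγ ((FaithfulSMul.algebraMap_injective (𝓞 K) (𝓞 M)) (by simpa using h))
  -- the multiplicity of `β` at `w` is `s`
  have hβmult : emultiplicity w (span {β}) = s := by
    have h1 := emult_algebraMap K M v hv0 w γ hγ
    rw [he, (emult_eq_iff v γ s).mpr ⟨hs, hs'⟩, h, emult_pow_mul_unit w hw0] at h1
    have hfin : FiniteMultiplicity w (span {β}) :=
      FiniteMultiplicity.of_prime_left hwprime (by simpa using hβ)
    rw [hfin.emultiplicity_eq_multiplicity] at h1 ⊢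
    have h2 : (((q - 1) * multiplicity w (span {β}) : ℕ) : ℕ∞) = (((q - 1) * s : ℕ) : ℕ∞) := by
      rw [Nat.cast_mul, Nat.cast_mul]; exact h1
    rw [Nat.cast_inj] at h2
    rw [Nat.cast_inj]
    exact Nat.eq_of_mul_eq_mul_left (Nat.pos_of_ne_zero hq1) h2
  obtain ⟨hβs, hβs'⟩ := (emult_eq_iff w β s).mp hβmult
  have hπmult : emultiplicity w (span {(z - 1) ^ s}) = s := by
    rw [← Ideal.span_singleton_pow, emultiplicity_pow hwprime, hπ, mul_one]
  obtain ⟨hπs, hπs'⟩ := (emult_eq_iff w ((z - 1) ^ s) s).mp hπmult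
  have hπw : z - 1 ∈ w := by
    have := ((emult_eq_iff w (z - 1) 1).mp (by simpa using hπ)).1
    simpa using this
  obtain ⟨d, e, he', hde⟩ := Ideal.exists_mul_add_mem_pow_succ hw0 ((z - 1) ^ s) β hπs hπs' hβs
  have hd : d ∉ w := by
    intro hdw
    apply hβs'
    rw [← hde]
    refine Ideal.add_mem _ ?_ he'
    rw [pow_succ]
    exact Ideal.mul_mem_mul hπs hdw
  -- the Galois action
  set τ' : 𝓞 M ≃ₐ[𝓞 K] 𝓞 M := galRestrict (𝓞 K) K M (𝓞 M) τ with hτ'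
  have hτz : τ' z = z ^ g := by
    apply RingOfIntegers.ext
    have h1 : algebraMap (𝓞 M) M (τ' z) = τ (algebraMap (𝓞 M) M z) :=
      algebraMap_galRestrict_apply (𝓞 K) τ z
    have h2 : algebraMap (𝓞 M) M z = ζ := rfl
    rw [h2, hτ] at h1
    exact h1.trans (by
      rw [show ((z ^ g : 𝓞 M) : M) = (algebraMap (𝓞 M) M z) ^ g from map_pow _ _ _, h2])
  set W : 𝓞 M := ∑ i ∈ Finset.range g, z ^ i with hW
  have hτπ : τ' (z - 1) = (z - 1) * W := by
    rw [map_sub, map_one, hτz, hW, mul_geom_sum]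
  have hτβ : τ' β = δ * β := by
    apply RingOfIntegers.ext
    have h1 : algebraMap (𝓞 M) M (τ' β) = τ (algebraMap (𝓞 M) M β) :=
      algebraMap_galRestrict_apply (𝓞 K) τ β
    rw [show ((τ' β : 𝓞 M) : M) = algebraMap (𝓞 M) M (τ' β) from rfl, h1]
    simpa using hδ
  have key : (z - 1) ^ s * (W ^ s * τ' d - δ * d) ∈ w ^ (s + 1) := by
    have h1 : τ' β = (τ' (z - 1)) ^ s * τ' d + τ' e := by
      rw [← hde]; simp
    have h2 : (z - 1) ^ s * (W ^ s * τ' d - δ * d) = δ * e - τ' e := by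
      rw [hτβ, hτπ, mul_pow, ← hde] at h1
      linear_combination -h1
    rw [h2]
    exact Ideal.sub_mem _ (Ideal.mul_mem_left _ _ he')
      (algEquiv_mem_pow_of_unique K M v w huniq τ' (s + 1) he')
  have key2 : W ^ s * τ' d - δ * d ∈ w := Ideal.mem_prime_of_mul_mem_pow hw0 hπs' key
  -- congruences modulo `w`
  have hWg : W - (g : 𝓞 M) ∈ w := by
    have h1 : W - (g : 𝓞 M) = ∑ i ∈ Finset.range g, (z ^ i - 1) := by
      rw [Finset.sum_sub_distrib, hW]; simp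
    rw [h1]
    refine Ideal.sum_mem _ (fun i _ => ?_)
    obtain ⟨t, ht⟩ : z - 1 ∣ z ^ i - 1 := by simpa using sub_dvd_pow_sub_pow z 1 i
    rw [ht]
    exact Ideal.mul_mem_right _ _ hπw
  have hWs : W ^ s - (g : 𝓞 M) ^ s ∈ w := by
    obtain ⟨t, ht⟩ := sub_dvd_pow_sub_pow W (g : 𝓞 M) s
    rw [ht]
    exact Ideal.mul_mem_right _ _ hWg
  obtain ⟨d0, hd0⟩ := exists_sub_mem_of_inertiaDeg_eq_one K M v w hf d
  have hτd : τ' d - d ∈ w := by
    have h1 : τ' d - d = τ' (d - algebraMap (𝓞 K) (𝓞 M) d0) - (d - algebraMap (𝓞 K) (𝓞 M) d0) := by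
      rw [map_sub, τ'.commutes]; ring
    rw [h1]
    exact Ideal.sub_mem _ (algEquiv_mem_of_unique K M v w huniq τ' hd0) hd0
  have hδc : δ - algebraMap (𝓞 K) (𝓞 M) c ∈ w :=
    (Ideal.span_le.mpr (Set.singleton_subset_iff.mpr hπw)) hc
  have hfin : algebraMap (𝓞 K) (𝓞 M) ((g : 𝓞 K) ^ s - c) * d ∈ w := by
    have h1 : algebraMap (𝓞 K) (𝓞 M) ((g : 𝓞 K) ^ s - c) * d =
        (W ^ s * τ' d - δ * d) - (W ^ s - (g : 𝓞 M) ^ s) * τ' d - (g : 𝓞 M) ^ s * (τ' d - d)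
          + (δ - algebraMap (𝓞 K) (𝓞 M) c) * d := by
      rw [map_sub, map_pow, map_natCast]; ring
    rw [h1]
    exact Ideal.add_mem _ (Ideal.sub_mem _ (Ideal.sub_mem _ key2 (Ideal.mul_mem_right _ _ hWs))
      (Ideal.mul_mem_left _ _ hτd)) (Ideal.mul_mem_right _ _ hδc)
  rcases Ideal.IsPrime.mem_or_mem hw hfin with h1 | h1
  · have h2 : ((g : 𝓞 K) ^ s - c) ∈ w.under (𝓞 K) := h1
    rwa [← hwv.over] at h2
  · exact absurd h1 hd

/-! ### `count` forms (the shape of `cnt` in the S14 skeleton) -/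

open IsDedekindDomain in
lemma mem_pow_iff_le_count {R : Type*} [CommRing R] [IsDedekindDomain R]
    (v : HeightOneSpectrum R) (x : R) (hx : x ≠ 0) (k : ℕ) :
    x ∈ v.asIdeal ^ k ↔
      k ≤ (Associates.mk v.asIdeal).count (Associates.mk (Ideal.span {x})).factors := by
  rw [← Ideal.dvd_span_singleton, Ideal.dvd_span_singleton, ← Associates.le_singleton_iff,
    Associates.prime_pow_dvd_iff_le (Associates.mk_ne_zero'.mpr hx) v.associates_irreducible]

open IsDedekindDomain in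
/-- (R2), `count` form. -/
theorem dvd_count_of_not_mem {ζ : M} (hζ : IsPrimitiveRoot ζ q)
    (γ : 𝓞 K) (hγ : γ ≠ 0) (β : 𝓞 M)
    (u : (𝓞 M)ˣ) (h : algebraMap (𝓞 K) (𝓞 M) γ = β ^ (q - 1) * u)
    (v : HeightOneSpectrum (𝓞 K)) (hv : (q : 𝓞 K) ∉ v.asIdeal) :
    (q - 1) ∣ (Associates.mk v.asIdeal).count (Associates.mk (Ideal.span {γ})).factors := by
  have : v.asIdeal.IsPrime := v.isPrime
  exact dvd_of_mem_pow_of_not_mem q K M hζ γ β u h v.asIdeal hv _
    ((mem_pow_iff_le_count v γ hγ _).mpr le_rfl)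
    (fun hmem => absurd ((mem_pow_iff_le_count v γ hγ _).mp hmem) (by omega))

omit [IsCyclotomicExtension {q} K M] in
open IsDedekindDomain in
/-- (R3), `count` form. -/
theorem pow_count_sub_mem (hdeg : Module.finrank K M = q - 1) {ζ : M} (hζ : IsPrimitiveRoot ζ q)
    (γ : 𝓞 K) (hγ : γ ≠ 0) (β : 𝓞 M) (u : (𝓞 M)ˣ)
    (h : algebraMap (𝓞 K) (𝓞 M) γ = β ^ (q - 1) * u)
    (v : HeightOneSpectrum (𝓞 K)) (hv : (q : 𝓞 K) ∈ v.asIdeal) (hv2 : (q : 𝓞 K) ∉ v.asIdeal ^ 2)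
    (τ : M ≃ₐ[K] M) (g : ℕ) (hτ : τ ζ = ζ ^ g) (δ : 𝓞 M)
    (hδ : τ (β : M) = (δ : M) * (β : M))
    (c : 𝓞 K) (hc : δ - algebraMap (𝓞 K) (𝓞 M) c ∈ Ideal.span {hζ.toInteger - 1}) :
    (g : 𝓞 K) ^ ((Associates.mk v.asIdeal).count (Associates.mk (Ideal.span {γ})).factors) - c
      ∈ v.asIdeal := by
  have : v.asIdeal.IsPrime := v.isPrime
  exact pow_sub_mem_of_mem q K M hdeg hζ γ β u h v.asIdeal hv hv2 τ g hτ δ hδ c hc _
    ((mem_pow_iff_le_count v γ hγ _).mpr le_rfl)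
    (fun hmem => absurd ((mem_pow_iff_le_count v γ hγ _).mp hmem) (by omega))

end Fermat.Agent.S14.H71
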