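import Mathlib
import Fermat.Agent.S14.H70.Defs
import Fermat.Agent.S14.H71.Ram
import Fermat.Agent.S14.H98.ThaineCls

/-!
# S14 / Thaine package: glue (helper71)

`ThaineFieldData ζ q` packages the output of the field-theoretic part of Thaine's argument
(`M = K(ζ_q)`, Hilbert 90 element `β`, `γ = N β = β ^ (q - 1) * unit`).  From it, the ramification
results of `Ram.lean` give the Thaine relation, and `H98.thaine_char_of_relation` gives the
skeleton statement `thaine_char`.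
-/

open NumberField IsDedekindDomain
open scoped nonZeroDivisors
open Fermat.Agent.S14.H70

namespace Fermat.Agent.S14.H71

variable {p : ℕ} [Fact p.Prime] {K : Type} [Field K] [NumberField K]

/-- The output of the field-theoretic part of Thaine's argument for the prime `q`:
a number field `M = K(ζ_q)` of degree `q - 1` over `K`, an automorphism `τ` with
`τ ζ_q = ζ_q ^ g`, a nonzero integer `β` of `M` with `τ β = (ζ - ζ_q) β`, and `γ ∈ 𝓞 K`, `γ ≠ 0`,
which is `β ^ (q - 1)` times a unit. -/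
def ThaineFieldData (ζ : K) (q : ℕ) : Prop :=
  ∃ (M : Type) (_ : Field M) (_ : NumberField M) (_ : Algebra K M) (ζq : M) (τ : M ≃ₐ[K] M)
    (g : ℕ) (β : 𝓞 M) (u : (𝓞 M)ˣ) (γ : 𝓞 K),
    IsCyclotomicExtension {q} K M ∧ IsPrimitiveRoot ζq q ∧ Module.finrank K M = q - 1 ∧
    τ ζq = ζq ^ g ∧ γ ≠ 0 ∧ algebraMap (𝓞 K) (𝓞 M) γ = β ^ (q - 1) * u ∧
    τ (β : M) = (algebraMap K M ζ - ζq) * (β : M)

/-- A prime `q ≠ p` is unramified in the `p`-th cyclotomic field: `q ∉ v ^ 2`. -/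
theorem natCast_not_mem_sq [IsCyclotomicExtension {p} ℚ K] (q : ℕ) [hq : Fact q.Prime]
    (hqp : q ≠ p) (v : HeightOneSpectrum (𝓞 K)) (hv : (q : 𝓞 K) ∈ v.asIdeal) :
    (q : 𝓞 K) ∉ v.asIdeal ^ 2 := by
  have hp : p.Prime := Fact.out
  have : NeZero p := ⟨hp.ne_zero⟩
  have hvprime : v.asIdeal.IsPrime := v.isPrime
  have hqZ : (Ideal.span {(q : ℤ)}).IsMaximal :=
    Int.ideal_span_isMaximal_of_prime q
  have hlies : v.asIdeal.LiesOver (Ideal.span {(q : ℤ)}) := by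
    constructor
    refine (Ideal.IsMaximal.eq_of_le hqZ Ideal.IsPrime.ne_top' ?_)
    rw [Ideal.span_singleton_le_iff_mem, Ideal.mem_comap]
    simpa using hv
  have hndvd : ¬ q ∣ p := by
    intro h
    exact hqp ((Nat.prime_dvd_prime_iff_eq hq.out hp).mp h)
  have he : v.asIdeal.ramificationIdx ℤ = 1 :=
    IsCyclotomicExtension.Rat.ramificationIdx_eq_of_not_dvd q K v.asIdeal hndvd
  have hq0 : Ideal.span {(q : ℤ)} ≠ ⊥ := by
    simp [hq.out.ne_zero]
  have h1 := Ideal.IsDedekindDomain.emultiplicity_map_eq_ramificationIdx'_mul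
    (R := ℤ) (S := 𝓞 K) (v := Ideal.span {(q : ℤ)}) (w := v.asIdeal) (I := Ideal.span {(q : ℤ)})
    hq0 (Ideal.prime_of_isPrime hq0 inferInstance).irreducible v.irreducible v.ne_bot
  rw [Ideal.map_span, Set.image_singleton, Ideal.ramificationIdx'_eq_ramificationIdx _ _ hq0, he,
    Nat.cast_one, one_mul] at h1
  have h2 : emultiplicity (Ideal.span {(q : ℤ)}) (Ideal.span {(q : ℤ)}) = 1 := by
    have := (emult_eq_iff (Ideal.span {(q : ℤ)}) (q : ℤ) 1).mpr ⟨by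
      rw [pow_one]; exact Ideal.mem_span_singleton_self _, by
      rw [Ideal.span_singleton_pow, Ideal.mem_span_singleton]
      intro hdvd
      have h3 : (q : ℤ) ^ 2 ∣ (q : ℤ) ^ 1 := by simpa using hdvd
      have h4 := (Nat.pow_dvd_pow_iff_le_right hq.out.one_lt).mp (by exact_mod_cast h3)
      omega⟩
    simpa using this
  rw [h2] at h1
  have h3 : algebraMap ℤ (𝓞 K) (q : ℤ) = (q : 𝓞 K) := by simp
  rw [h3] at h1
  exact ((emult_eq_iff v.asIdeal (q : 𝓞 K) 1).mp (by simpa using h1)).2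

/-- For a degree-one prime `Q ∌ p` of the `p`-th cyclotomic field, `p ∣ N Q - 1`. -/
theorem dvd_absNorm_sub_one [IsCyclotomicExtension {p} ℚ K] {ζ : K} (hζ : IsPrimitiveRoot ζ p)
    (Q : Ideal (𝓞 K)) [hQ : Q.IsPrime] (hq : (Ideal.absNorm Q).Prime)
    (hQp : (p : 𝓞 K) ∉ Q) : p ∣ Ideal.absNorm Q - 1 := by
  have hp : p.Prime := Fact.out
  have : NeZero p := ⟨hp.ne_zero⟩
  have hQ0 : Q ≠ ⊥ := by
    rintro rfl
    rw [Ideal.absNorm_bot] at hq
    exact Nat.not_prime_zero hq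
  have hmax : Q.IsMaximal := Ideal.IsPrime.isMaximal hQ hQ0
  let _ : Field (𝓞 K ⧸ Q) := Ideal.Quotient.field Q
  have hfin : Finite (𝓞 K ⧸ Q) := Ideal.finiteQuotientOfFreeOfNeBot Q hQ0
  let _ : Fintype (𝓞 K ⧸ Q) := Fintype.ofFinite _
  have hcard : Fintype.card (𝓞 K ⧸ Q) = Ideal.absNorm Q := by
    rw [← Nat.card_eq_fintype_card, Ideal.absNorm_apply, Submodule.cardQuot_apply]
  set z : 𝓞 K ⧸ Q := Ideal.Quotient.mk Q hζ.toInteger with hz
  have hzp : z ^ p = 1 := by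
    rw [hz, ← map_pow, hζ.toInteger_isPrimitiveRoot.pow_eq_one, map_one]
  have hz1 : z ≠ 1 := by
    intro h
    apply hQp
    have h1 : hζ.toInteger - 1 ∈ Q := by
      rw [← Ideal.Quotient.eq_zero_iff_mem, map_sub, map_one, ← hz, h, sub_self]
    obtain ⟨t, ht⟩ := hζ.toInteger_isPrimitiveRoot.sub_one_dvd_natCast hp.one_lt
    rw [ht]
    exact Ideal.mul_mem_right _ _ h1
  have hord : orderOf z = p := orderOf_eq_prime hzp hz1
  have hz0 : z ≠ 0 := by
    intro h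
    rw [h, zero_pow hp.ne_zero] at hzp
    exact zero_ne_one hzp
  have h2 : z ^ (Ideal.absNorm Q - 1) = 1 := by
    rw [← hcard]
    exact FiniteField.pow_card_sub_one_eq_one z hz0
  rw [← hord]
  exact orderOf_dvd_of_pow_eq_one h2

/-- **Thaine**: the skeleton statement `thaine_char`, given the field data for `q = N Q`. -/
theorem thaine_char_of_fieldData [IsCyclotomicExtension {p} ℚ K] {ζ : K}
    (hζ : IsPrimitiveRoot ζ p) (χ : ClassGroup (𝓞 K) →* Multiplicative (ZMod p))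
    (hχ : IsEigenChar hζ χ) (Q : (Ideal (𝓞 K))⁰) (hQ : (Q : Ideal (𝓞 K)).IsPrime)
    (hq : (Ideal.absNorm (Q : Ideal (𝓞 K))).Prime) (hQp : (p : 𝓞 K) ∉ (Q : Ideal (𝓞 K)))
    (hQχ : χ (ClassGroup.mk0 Q) ≠ 1)
    (hF : ThaineFieldData ζ (Ideal.absNorm (Q : Ideal (𝓞 K)))) :
    ∃ y : 𝓞 K, thetaTwo hζ - y ^ p ∈ (Q : Ideal (𝓞 K)) := by
  have hp : p.Prime := Fact.out
  have : NeZero p := ⟨hp.ne_zero⟩
  set q := Ideal.absNorm (Q : Ideal (𝓞 K)) with hqdef
  have hqfact : Fact q.Prime := ⟨hq⟩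
  have hqQ : (q : 𝓞 K) ∈ (Q : Ideal (𝓞 K)) := Ideal.absNorm_mem _
  have hqp : q ≠ p := by
    intro h
    rw [h] at hqQ
    exact hQp hqQ
  have hpq : p ∣ q - 1 := dvd_absNorm_sub_one hζ (Q : Ideal (𝓞 K)) hq hQp
  obtain ⟨M, _, _, _, ζq, τ, g, β, u, γ, hcyc, hζq, hdeg, hτ, hγ, hnorm, hβ⟩ := hF
  have : NeZero q := ⟨hq.ne_zero⟩
  refine H98.thaine_char_of_relation hζ χ hχ Q hQ hq hQp hQχ γ g hγ ?_ ?_
  · intro v hv
    exact hpq.trans (dvd_count_of_not_mem q K M hζq γ hγ β u hnorm v hv)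
  · intro v hv
    set δ : 𝓞 M := algebraMap (𝓞 K) (𝓞 M) hζ.toInteger - hζq.toInteger with hδdef
    have hδ : τ (β : M) = (δ : M) * (β : M) := by
      rw [hβ]
      congr 1
    have hc : δ - algebraMap (𝓞 K) (𝓞 M) (hζ.toInteger - 1) ∈
        Ideal.span {hζq.toInteger - 1} := by
      have h1 : δ - algebraMap (𝓞 K) (𝓞 M) (hζ.toInteger - 1) = (hζq.toInteger - 1) * (-1) := by
        rw [hδdef, map_sub, map_one]; ring
      rw [h1]
      exact Ideal.mul_mem_right _ _ (Ideal.mem_span_singleton_self _)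
    exact pow_count_sub_mem q K M hdeg hζq γ hγ β u hnorm v hv
      (natCast_not_mem_sq q hqp v hv) τ g hτ δ hδ (hζ.toInteger - 1) hc

end Fermat.Agent.S14.H71
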