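import Mathlib
import Fermat.Agent.S14.H71.ThaineGlue

/-!
# S14 / Thaine package: the field-theoretic part (helper71)

For `K = ℚ(ζ_p)` and a prime `q ≠ p` with `p ∣ q - 1` we construct `ThaineFieldData ζ q`:
`M = K(ζ_q)` has degree `q - 1` over `K`, cyclic Galois group, `N_{M/K}(ζ - ζ_q) = Φ_q(ζ) = 1`,
Hilbert 90 gives `β` with `τ β = (ζ - ζ_q) β`, and `N β = β ^ (q - 1) * unit`.
-/

open NumberField Polynomial
open scoped nonZeroDivisors

namespace Fermat.Agent.S14.H71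

section Field

variable {K : Type} [Field K]

/-- If `[K(ζ_q) : K] = q - 1` then the `q`-th cyclotomic polynomial is irreducible over `K`. -/
theorem irreducible_cyclotomic_of_finrank (q : ℕ) [hq : Fact q.Prime] (M : Type) [Field M]
    [Algebra K M] [IsCyclotomicExtension {q} K M] (hdeg : Module.finrank K M = q - 1) :
    Irreducible (cyclotomic q K) := by
  have hqne : NeZero q := ⟨hq.out.ne_zero⟩
  have hζ := IsCyclotomicExtension.zeta_spec q K M
  set ζ := IsCyclotomicExtension.zeta q K M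
  have hint : IsIntegral K ζ := hζ.isIntegral hq.out.pos |>.tower_top
  have hne : NeZero ((q : ℕ) : M) := by
    have := IsCyclotomicExtension.neZero' q K M
    exact NeZero.of_faithfulSMul K M q
  have hroot : aeval ζ (cyclotomic q K) = 0 := by
    rw [aeval_def, eval₂_eq_eval_map, map_cyclotomic]
    exact hζ.isRoot_cyclotomic hq.out.pos
  have hdvd : minpoly K ζ ∣ cyclotomic q K := minpoly.dvd K ζ hroot
  have hdeg' : (minpoly K ζ).natDegree = q - 1 := by
    have h1 := (hζ.powerBasis K).natDegree_minpoly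
    rw [IsPrimitiveRoot.powerBasis_gen] at h1
    rw [h1, ← (hζ.powerBasis K).finrank, hdeg]
  have heq : cyclotomic q K = minpoly K ζ := by
    refine Polynomial.eq_of_monic_of_dvd_of_natDegree_le (minpoly.monic hint)
      (cyclotomic.monic q K) hdvd ?_
    rw [natDegree_cyclotomic, Nat.totient_prime hq.out, hdeg']
  rw [heq]
  exact minpoly.irreducible hint

/-- The norm of `x - ζ_q` from `K(ζ_q)` to `K` is `Φ_q(x)`. -/
theorem norm_algebraMap_sub (q : ℕ) [hq : Fact q.Prime] (M : Type) [Field M]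
    [Algebra K M] [IsCyclotomicExtension {q} K M] (hirr : Irreducible (cyclotomic q K))
    {ζq : M} (hζq : IsPrimitiveRoot ζq q) (x : K) :
    Algebra.norm K (algebraMap K M x - ζq) = eval x (cyclotomic q K) := by
  have hqne : NeZero q := ⟨hq.out.ne_zero⟩
  have := IsCyclotomicExtension.neZero' q K M
  let E := AlgebraicClosure M
  obtain ⟨z, hz⟩ := IsAlgClosed.exists_root _ (degree_cyclotomic_pos q E (NeZero.pos _)).ne.symm
  apply (algebraMap K E).injective
  let := IsCyclotomicExtension.finiteDimensional {q} K M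
  let := IsCyclotomicExtension.isGalois {q} K M
  rw [Algebra.norm_eq_prod_embeddings]
  have Hprod : (Finset.univ.prod fun σ : M →ₐ[K] E => σ (algebraMap K M x - ζq)) =
      eval (algebraMap K E x) (cyclotomic' q E) := by
    rw [cyclotomic', eval_prod, ← @Finset.prod_attach E E, ← Finset.univ_eq_attach]
    refine Fintype.prod_equiv (hζq.embeddingsEquivPrimitiveRoots E hirr) _ _ fun σ => ?_
    simp
  have : NeZero ((q : ℕ) : E) := NeZero.of_faithfulSMul K _ q
  rw [Hprod, cyclotomic', ← cyclotomic_eq_prod_X_sub_primitiveRoots (isRoot_cyclotomic_iff.1 hz),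
    ← map_cyclotomic q (algebraMap K E), eval_map_apply]

/-- `Φ_q(ζ) = 1` for a primitive `p`-th root of unity `ζ` when `p ∣ q - 1`. -/
theorem eval_cyclotomic_eq_one {p : ℕ} (q : ℕ) [hq : Fact q.Prime] {ζ : K}
    (hζ : IsPrimitiveRoot ζ p) (hp1 : 1 < p) (hpq : p ∣ q - 1) : eval ζ (cyclotomic q K) = 1 := by
  rw [cyclotomic_prime, eval_finsetSum]
  simp only [eval_pow, eval_X]
  have h1 : ζ ^ q = ζ := by
    obtain ⟨k, hk⟩ := hpq
    have hq1 : q = p * k + 1 := by have := hq.out.one_le; omega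
    rw [hq1, pow_succ, pow_mul, hζ.pow_eq_one, one_pow, one_mul]
  have h2 : (ζ - 1) * ∑ i ∈ Finset.range q, ζ ^ i = ζ - 1 := by
    rw [mul_geom_sum, h1]
  have h3 : ζ - 1 ≠ 0 := sub_ne_zero.mpr (hζ.ne_one hp1)
  exact mul_left_cancel₀ h3 (by rw [h2, mul_one])

end Field

variable {p : ℕ} [hp : Fact p.Prime] {K : Type} [Field K] [NumberField K]

/-- `[K(ζ_q) : K] = q - 1` for `K = ℚ(ζ_p)`, `q ≠ p`. -/
theorem finrank_cyclotomic_of_ne [IsCyclotomicExtension {p} ℚ K] (q : ℕ) [hq : Fact q.Prime]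
    (hqp : q ≠ p) (M : Type) [Field M] [Algebra K M] [IsCyclotomicExtension {q} K M] :
    Module.finrank K M = q - 1 := by
  have hpne : NeZero p := ⟨hp.out.ne_zero⟩
  have hqne : NeZero q := ⟨hq.out.ne_zero⟩
  have hpq0 : NeZero (p * q) := ⟨Nat.mul_ne_zero hp.out.ne_zero hq.out.ne_zero⟩
  have hcop : Nat.Coprime p q := (Nat.coprime_primes hp.out hq.out).mpr (Ne.symm hqp)
  have hchar : CharZero M := charZero_of_injective_algebraMap (algebraMap K M).injective
  -- `M` is a `pq`-th cyclotomic extension of `ℚ`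
  have h1 : IsCyclotomicExtension ({p} ∪ {q}) ℚ M :=
    IsCyclotomicExtension.trans {p} {q} ℚ K M (algebraMap K M).injective
  obtain ⟨ζp, hζp⟩ := h1.exists_isPrimitiveRoot (n := p) (by simp) hp.out.ne_zero
  obtain ⟨ζq, hζq⟩ := h1.exists_isPrimitiveRoot (n := q) (by simp) hq.out.ne_zero
  have hprim := hζp.pow_mul_pow_lcm hζq hp.out.ne_zero hq.out.ne_zero
  rw [hcop.lcm_eq_mul] at hprim
  have h2 : IsCyclotomicExtension (({p} ∪ {q}) ∪ {p * q}) ℚ M :=
    IsCyclotomicExtension.union_of_isPrimitiveRoot _ ℚ M hprim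
  have h3 : IsCyclotomicExtension (({p * q} ∪ {p}) ∪ {q}) ℚ M := by
    have : (({p * q} ∪ {p}) ∪ {q} : Set ℕ) = (({p} ∪ {q}) ∪ {p * q}) := by
      ext x; simp only [Set.mem_union, Set.mem_singleton_iff]; tauto
    rw [this]; exact h2
  have h4 : IsCyclotomicExtension ({p * q} ∪ {p}) ℚ M :=
    (IsCyclotomicExtension.iff_union_of_dvd ℚ M
      ⟨p * q, by simp, Nat.mul_ne_zero hp.out.ne_zero hq.out.ne_zero, Dvd.intro_left p rfl⟩).mpr h3
  have h5 : IsCyclotomicExtension {p * q} ℚ M :=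
    (IsCyclotomicExtension.iff_union_of_dvd ℚ M
      ⟨p * q, by simp, Nat.mul_ne_zero hp.out.ne_zero hq.out.ne_zero, Dvd.intro q rfl⟩).mpr h4
  have hM : Module.finrank ℚ M = (p * q).totient :=
    IsCyclotomicExtension.finrank M (cyclotomic.irreducible_rat (Nat.pos_of_ne_zero hpq0.out))
  have hK : Module.finrank ℚ K = p.totient :=
    IsCyclotomicExtension.finrank K (cyclotomic.irreducible_rat hp.out.pos)
  have hfin : FiniteDimensional K M := IsCyclotomicExtension.finiteDimensional {q} K M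
  have htower := Module.finrank_mul_finrank ℚ K M
  rw [hM, hK, Nat.totient_mul hcop, Nat.totient_prime hp.out, Nat.totient_prime hq.out] at htower
  have hp1 : 0 < p - 1 := by have := hp.out.two_le; omega
  exact Nat.eq_of_mul_eq_mul_left hp1 htower

/-- **T-field**: the field data for Thaine's argument exist for every prime `q ≠ p` with
`p ∣ q - 1`. -/
theorem thaineFieldData [IsCyclotomicExtension {p} ℚ K] {ζ : K} (hζ : IsPrimitiveRoot ζ p)
    (q : ℕ) (hq : q.Prime) (hqp : q ≠ p) (hpq : p ∣ q - 1) : ThaineFieldData ζ q := by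
  have hqf : Fact q.Prime := ⟨hq⟩
  have hqne : NeZero q := ⟨hq.ne_zero⟩
  have hpne : NeZero p := ⟨hp.out.ne_zero⟩
  have hqK : NeZero ((q : ℕ) : K) := ⟨Nat.cast_ne_zero.mpr hq.ne_zero⟩
  let M := CyclotomicField q K
  have hNF : NumberField M := IsCyclotomicExtension.numberField {q} K M
  have hdeg : Module.finrank K M = q - 1 := finrank_cyclotomic_of_ne q hqp M
  have hirr : Irreducible (cyclotomic q K) := irreducible_cyclotomic_of_finrank q M hdeg
  have hζq := IsCyclotomicExtension.zeta_spec q K M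
  set ζq : M := IsCyclotomicExtension.zeta q K M with hζqdef
  have hfd : FiniteDimensional K M := IsCyclotomicExtension.finiteDimensional {q} K M
  have hgal : IsGalois K M := IsCyclotomicExtension.isGalois {q} K M
  have hcyc : IsCyclic (M ≃ₐ[K] M) :=
    isCyclic_of_injective (hζq.autToPow K) (hζq.autToPow_injective K)
  obtain ⟨g₀, hg₀⟩ := IsCyclic.exists_generator (α := M ≃ₐ[K] M)
  -- the element `δ = ζ - ζ_q` of norm one
  set δ : 𝓞 M := algebraMap (𝓞 K) (𝓞 M) hζ.toInteger - hζq.toInteger with hδdef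
  have hδcoe : algebraMap (𝓞 M) M δ = algebraMap K M ζ - ζq := rfl
  have hnorm : Algebra.norm K (algebraMap (𝓞 M) M δ) = 1 := by
    rw [hδcoe, norm_algebraMap_sub q M hirr hζq ζ,
      eval_cyclotomic_eq_one q hζ hp.out.one_lt hpq]
  -- Hilbert 90
  obtain ⟨ε, hε0, hε⟩ := groupCohomology.exists_mul_galRestrict_of_norm_eq_one
    (A := 𝓞 K) (B := 𝓞 M) hg₀ hnorm
  set β : 𝓞 M := galRestrict (𝓞 K) K M (𝓞 M) g₀ ε with hβdef
  have hβ0 : β ≠ 0 := by
    intro h0
    apply hε0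
    have : galRestrict (𝓞 K) K M (𝓞 M) g₀ ε = galRestrict (𝓞 K) K M (𝓞 M) g₀ 0 := by
      rw [map_zero]; exact h0
    exact (galRestrict (𝓞 K) K M (𝓞 M) g₀).injective this
  have hβcoe : (β : M) = g₀ (ε : M) := algebraMap_galRestrict_apply (𝓞 K) g₀ ε
  set τ : M ≃ₐ[K] M := g₀⁻¹ with hτdef
  have hτβ : τ (β : M) = (δ : M) * (β : M) := by
    have h1 : τ (β : M) = (ε : M) := by
      rw [hβcoe, hτdef]
      exact g₀.symm_apply_apply (ε : M)
    have h2 : ((δ * β : 𝓞 M) : M) = (ε : M) := congrArg (fun x : 𝓞 M => (x : M)) hε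
    rw [h1, ← h2]
    rfl
  obtain ⟨g, -, hgτ⟩ := hζq.eq_pow_of_pow_eq_one (ξ := τ ζq)
    (by rw [← map_pow, hζq.pow_eq_one, map_one])
  -- `δ` is a unit
  have hδunit : IsUnit δ := by
    classical
    have h1 := Algebra.norm_eq_prod_automorphisms K (algebraMap (𝓞 M) M δ)
    rw [hnorm, map_one, ← Finset.mul_prod_erase Finset.univ _ (Finset.mem_univ (1 : M ≃ₐ[K] M))]
      at h1
    refine IsUnit.of_mul_eq_one (∏ σ ∈ Finset.univ.erase (1 : M ≃ₐ[K] M),
      galRestrict (𝓞 K) K M (𝓞 M) σ δ) ?_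
    apply RingOfIntegers.ext
    rw [show ((1 : 𝓞 M) : M) = 1 from rfl, h1]
    rw [show ((δ * ∏ σ ∈ Finset.univ.erase (1 : M ≃ₐ[K] M),
      galRestrict (𝓞 K) K M (𝓞 M) σ δ : 𝓞 M) : M) = algebraMap (𝓞 M) M (δ * ∏ σ ∈
      Finset.univ.erase (1 : M ≃ₐ[K] M), galRestrict (𝓞 K) K M (𝓞 M) σ δ) from rfl, map_mul,
      map_prod]
    congr 1
    refine Finset.prod_congr rfl (fun σ _ => ?_)
    exact algebraMap_galRestrict_apply (𝓞 K) σ δ
  -- every conjugate of `β` is a unit multiple of `β`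
  have hpow : ∀ n : ℕ, ∃ u : (𝓞 M)ˣ, (τ ^ n) (β : M) = ((u : 𝓞 M) : M) * (β : M) := by
    intro n
    induction n with
    | zero => exact ⟨1, by simp⟩
    | succ n ih =>
      obtain ⟨u, hu⟩ := ih
      refine ⟨Units.map (galRestrict (𝓞 K) K M (𝓞 M) τ : 𝓞 M →* 𝓞 M) u * hδunit.unit, ?_⟩
      rw [pow_succ', AlgEquiv.mul_apply, hu, map_mul, hτβ]
      have h1 : τ ((u : 𝓞 M) : M) =
          (((galRestrict (𝓞 K) K M (𝓞 M) τ) (u : 𝓞 M) : 𝓞 M) : M) :=
        (algebraMap_galRestrict_apply (𝓞 K) τ (u : 𝓞 M)).symm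
      rw [h1]
      simp only [Units.val_mul, Units.coe_map, MonoidHom.coe_coe, IsUnit.unit_spec, map_mul]
      ring
  have hall : ∀ σ : M ≃ₐ[K] M, ∃ u : (𝓞 M)ˣ, σ (β : M) = ((u : 𝓞 M) : M) * (β : M) := by
    intro σ
    have h1 : σ ∈ Subgroup.zpowers τ := by
      rw [hτdef, Subgroup.zpowers_inv]; exact hg₀ σ
    obtain ⟨n, rfl⟩ := mem_powers_iff_mem_zpowers.mpr h1
    exact hpow n
  choose u hu using hall
  refine ⟨M, inferInstance, hNF, inferInstance, ζq, τ, g, β, ∏ σ, u σ,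
    Algebra.intNorm (𝓞 K) (𝓞 M) β, inferInstance, hζq, hdeg, hgτ.symm, ?_, ?_, hτβ⟩
  · -- `γ ≠ 0`
    intro h0
    have h1 := Algebra.algebraMap_intNorm (A := 𝓞 K) (K := K) (L := M) (B := 𝓞 M) β
    rw [h0, map_zero] at h1
    have h2 : algebraMap (𝓞 M) M β = 0 := Algebra.norm_eq_zero_iff.mp h1.symm
    exact hβ0 (RingOfIntegers.ext (by simpa using h2))
  · -- `γ = β ^ (q - 1) * unit`
    apply RingOfIntegers.ext
    have h1 := Algebra.algebraMap_intNorm (A := 𝓞 K) (K := K) (L := M) (B := 𝓞 M) β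
    have h2 := Algebra.norm_eq_prod_automorphisms K (algebraMap (𝓞 M) M β)
    have h3 : ((algebraMap (𝓞 K) (𝓞 M) (Algebra.intNorm (𝓞 K) (𝓞 M) β) : 𝓞 M) : M) =
        algebraMap K M (algebraMap (𝓞 K) K (Algebra.intNorm (𝓞 K) (𝓞 M) β)) := rfl
    rw [h3, h1, h2]
    have h4 : ∀ σ : M ≃ₐ[K] M, σ (algebraMap (𝓞 M) M β) = ((u σ : 𝓞 M) : M) * (β : M) := hu
    rw [Finset.prod_congr rfl (fun σ _ => h4 σ), Finset.prod_mul_distrib, Finset.prod_const,
      Finset.card_univ, ← Nat.card_eq_fintype_card, IsGalois.card_aut_eq_finrank, hdeg]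
    rw [show ((β ^ (q - 1) * ((∏ σ, u σ : (𝓞 M)ˣ) : 𝓞 M) : 𝓞 M) : M) =
      algebraMap (𝓞 M) M (β ^ (q - 1) * ((∏ σ, u σ : (𝓞 M)ˣ) : 𝓞 M)) from rfl, map_mul, map_pow,
      Units.coe_prod, map_prod, mul_comm]

end Fermat.Agent.S14.H71
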