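import Mathlib
import Fermat.Agent.S14.H71.ThaineField

/-!
# S14 / package T (Thaine): the skeleton statement `thaine_char` (helper71)

Assembled from `H71.Ram` (ramification in `K(ζ_q)/K`), `H71.ThaineField` (field data: degree,
norm, Hilbert 90), `H71.ThaineGlue` and `H98.ThaineCls` (class-group half, helper98).
-/

open NumberField IsDedekindDomain
open scoped nonZeroDivisors
open Fermat.Agent.S14.H70

namespace Fermat.Agent.S14.H71

variable {p : ℕ} [Fact p.Prime] {K : Type} [Field K] [NumberField K]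

/-- **THAINE** (skeleton statement, verbatim; the hypothesis `hp5` is not needed). -/
theorem thaine_char (_hp5 : 5 ≤ p) [IsCyclotomicExtension {p} ℚ K] {ζ : K}
    (hζ : IsPrimitiveRoot ζ p) (χ : ClassGroup (𝓞 K) →* Multiplicative (ZMod p))
    (hχ : IsEigenChar hζ χ) (Q : (Ideal (𝓞 K))⁰) (hQ : (Q : Ideal (𝓞 K)).IsPrime)
    (hq : (Ideal.absNorm (Q : Ideal (𝓞 K))).Prime) (hQp : (p : 𝓞 K) ∉ (Q : Ideal (𝓞 K)))
    (hQχ : χ (ClassGroup.mk0 Q) ≠ 1) :
    ∃ y : 𝓞 K, thetaTwo hζ - y ^ p ∈ (Q : Ideal (𝓞 K)) := by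
  have hqp : Ideal.absNorm (Q : Ideal (𝓞 K)) ≠ p := by
    intro h
    apply hQp
    have := Ideal.absNorm_mem (Q : Ideal (𝓞 K))
    rwa [h] at this
  exact thaine_char_of_fieldData hζ χ hχ Q hQ hq hQp hQχ
    (thaineFieldData hζ _ hq hqp (dvd_absNorm_sub_one hζ (Q : Ideal (𝓞 K)) hq hQp))

/-- The Thaine statement for all eigencharacters and all degree-one primes (any odd `p`). -/
theorem thaine_all [IsCyclotomicExtension {p} ℚ K] {ζ : K} (hζ : IsPrimitiveRoot ζ p) :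
    ∀ χ : ClassGroup (𝓞 K) →* Multiplicative (ZMod p), IsEigenChar hζ χ →
      ∀ Q : (Ideal (𝓞 K))⁰, (Q : Ideal (𝓞 K)).IsPrime →
        (Ideal.absNorm (Q : Ideal (𝓞 K))).Prime → (p : 𝓞 K) ∉ (Q : Ideal (𝓞 K)) →
        χ (ClassGroup.mk0 Q) ≠ 1 → ∃ y : 𝓞 K, thetaTwo hζ - y ^ p ∈ (Q : Ideal (𝓞 K)) := by
  intro χ hχ Q hQ hq hQp hQχ
  have hqp : Ideal.absNorm (Q : Ideal (𝓞 K)) ≠ p := by
    intro h
    apply hQp
    have := Ideal.absNorm_mem (Q : Ideal (𝓞 K))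
    rwa [h] at this
  exact thaine_char_of_fieldData hζ χ hχ Q hQ hq hQp hQχ
    (thaineFieldData hζ _ hq hqp (dvd_absNorm_sub_one hζ (Q : Ideal (𝓞 K)) hq hQp))

end Fermat.Agent.S14.H71
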